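/-
Fermat/Agent/MAZ/Constituents5/QuadNilp.lean  (helper5)

Programme MAZ (S15), brick X-ES-A1, abstract half, part 1: **the class `C_r`** of `Γ`-modules all
of whose constituents are killed by `r` and by `(g - 1)(g - χ(g))`.

`IsQuadNilp χ V` : there is a finite filtration `V = F 0 ⊇ … ⊇ F n = 0` by `Γ`-stable subgroups such
that `r` and every operator `quadOp χ g = (g - 1)(g - χ(g))` map `F j` into `F (j + 1)`.

* closed under equivariant injections and surjections, in particular under the stable subgroups and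
  quotients of `SelCoh42/Simple.lean` (`IsQuadNilp.sub`, `IsQuadNilp.quot`: the `hclosed` input of
  `sel_bound_of_simple`);
* a module of the class without proper nonzero stable subgroups is killed by `r` and by all
  `quadOp χ g` (`IsQuadNilp.simple`), hence is `0`, `ℤ/r` or `μ_r` by F-SIMPLE
  (`IsQuadNilp.classify`, via `Simple14.simple_of_two_char`).
-/
import Mathlib
import Fermat.Agent.MAZ.SelCoh42.Simple
import Fermat.Agent.MAZ.Simple14.Simple

set_option autoImplicit false
set_option linter.unusedSectionVars false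
set_option linter.style.haveILetI false

namespace Fermat.Agent.MAZ.Constituents5

open Fermat.Agent.MAZ.SelCoh42

universe u v

variable {Γ : Type v} [Group Γ] {r : ℕ} (χ : Γ →* (ZMod r)ˣ)

section Defs

variable {V : Type u} [AddCommGroup V] [DistribMulAction Γ V]

/-- The natural number lifting `χ g`. -/
def chiVal (g : Γ) : ℕ := ((χ g : (ZMod r)ˣ) : ZMod r).val

/-- The operator `(g - 1)(g - χ(g))`. -/
def quadOp (g : Γ) (x : V) : V := g • g • x - (1 + chiVal χ g) • g • x + chiVal χ g • x

theorem quadOp_def (g : Γ) (x : V) :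
    quadOp χ g x = g • g • x - (1 + chiVal χ g) • g • x + chiVal χ g • x := rfl

variable {W : Type u} [AddCommGroup W] [DistribMulAction Γ W]

theorem map_quadOp (f : V →+[Γ] W) (g : Γ) (x : V) : f (quadOp χ g x) = quadOp χ g (f x) := by
  simp only [quadOp, map_add, map_sub, map_nsmul, map_smul]

variable (V) in
/-- The class `C_r`. -/
def IsQuadNilp : Prop :=
  ∃ (n : ℕ) (F : ℕ → AddSubgroup V), F 0 = ⊤ ∧ F n = ⊥ ∧
    (∀ (j : ℕ) (g : Γ) (x : V), x ∈ F j → g • x ∈ F j) ∧
    (∀ (j : ℕ) (x : V), x ∈ F j → r • x ∈ F (j + 1)) ∧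
    (∀ (j : ℕ) (g : Γ) (x : V), x ∈ F j → quadOp χ g x ∈ F (j + 1))

/-- A module killed by `r` and by all `(g - 1)(g - χ g)` is in the class. -/
theorem isQuadNilp_of_killed (hr : ∀ x : V, r • x = 0) (hq : ∀ (g : Γ) (x : V), quadOp χ g x = 0) :
    IsQuadNilp χ V := by
  refine ⟨1, fun j => if j = 0 then ⊤ else ⊥, by simp, by simp, ?_, ?_, ?_⟩
  · intro j g x hx
    by_cases hj : j = 0
    · simp [hj]
    · simp only [hj, if_false, AddSubgroup.mem_bot] at hx ⊢
      rw [hx, smul_zero]
  · intro j x _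
    simp only [Nat.succ_ne_zero, if_false, AddSubgroup.mem_bot]
    exact hr x
  · intro j g x _
    simp only [Nat.succ_ne_zero, if_false, AddSubgroup.mem_bot]
    exact hq g x

/-- Closure under equivariant injections. -/
theorem IsQuadNilp.of_injective (h : IsQuadNilp χ V) (f : W →+[Γ] V) (hf : Function.Injective f) :
    IsQuadNilp χ W := by
  obtain ⟨n, F, h0, hn, hst, hr, hq⟩ := h
  refine ⟨n, fun j => (F j).comap (f : W →+ V), ?_, ?_, ?_, ?_, ?_⟩
  · show (F 0).comap (f : W →+ V) = ⊤
    rw [h0]; rfl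
  · show (F n).comap (f : W →+ V) = ⊥
    rw [hn]
    ext x
    simp only [AddSubgroup.mem_comap, AddSubgroup.mem_bot]
    exact ⟨fun hx => hf (by rw [map_zero]; exact hx), fun hx => by rw [hx]; exact map_zero f⟩
  · intro j g x hx
    simp only [AddSubgroup.mem_comap] at hx ⊢
    have : (f : W →+ V) (g • x) = g • (f : W →+ V) x := map_smul f g x
    rw [this]
    exact hst j g _ hx
  · intro j x hx
    simp only [AddSubgroup.mem_comap] at hx ⊢
    rw [map_nsmul]
    exact hr j _ hx
  · intro j g x hx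
    simp only [AddSubgroup.mem_comap] at hx ⊢
    have : (f : W →+ V) (quadOp χ g x) = quadOp χ g ((f : W →+ V) x) := map_quadOp χ f g x
    rw [this]
    exact hq j g _ hx

/-- Closure under equivariant surjections. -/
theorem IsQuadNilp.of_surjective (h : IsQuadNilp χ V) (f : V →+[Γ] W)
    (hf : Function.Surjective f) : IsQuadNilp χ W := by
  obtain ⟨n, F, h0, hn, hst, hr, hq⟩ := h
  refine ⟨n, fun j => (F j).map (f : V →+ W), ?_, ?_, ?_, ?_, ?_⟩
  · show (F 0).map (f : V →+ W) = ⊤
    rw [h0]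
    exact AddSubgroup.map_top_of_surjective (f : V →+ W) hf
  · show (F n).map (f : V →+ W) = ⊥
    rw [hn]; exact AddSubgroup.map_bot _
  · rintro j g _ ⟨x, hx, rfl⟩
    exact ⟨g • x, hst j g x hx, map_smul f g x⟩
  · rintro j _ ⟨x, hx, rfl⟩
    exact ⟨r • x, hr j x hx, map_nsmul _ _ _⟩
  · rintro j g _ ⟨x, hx, rfl⟩
    exact ⟨quadOp χ g x, hq j g x hx, map_quadOp χ f g x⟩

/-- Closure under stable subgroups. -/
theorem IsQuadNilp.sub (h : IsQuadNilp χ V) (T : StableSub Γ V) : IsQuadNilp χ T.W :=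
  h.of_injective χ T.incl T.shortExact.inj

/-- Closure under quotients by stable subgroups. -/
theorem IsQuadNilp.quot (h : IsQuadNilp χ V) (T : StableSub Γ V) : IsQuadNilp χ (V ⧸ T.W) :=
  h.of_surjective χ T.proj T.shortExact.surj

/-- **The simple objects of the class** are killed by `r` and by every `(g - 1)(g - χ g)`. -/
theorem IsQuadNilp.simple (h : IsQuadNilp χ V) (hs : IsSimpleOrZero Γ V) :
    (∀ x : V, r • x = 0) ∧ ∀ (g : Γ) (x : V), quadOp χ g x = 0 := by
  obtain ⟨n, F, h0, hn, hst, hr, hq⟩ := h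
  by_cases htriv : (⊤ : AddSubgroup V) = ⊥
  · have hx0 : ∀ x : V, x = 0 := fun x => by
      have : x ∈ (⊤ : AddSubgroup V) := AddSubgroup.mem_top x
      rw [htriv] at this
      exact this
    exact ⟨fun x => hx0 _, fun g x => hx0 _⟩
  · -- the least `j` with `F j ≠ ⊤`
    classical
    have hex : ∃ j, F j ≠ ⊤ := ⟨n, by rw [hn]; exact fun h => htriv h.symm⟩
    set j₀ := Nat.find hex with hj₀
    have hj₀ne : F j₀ ≠ ⊤ := Nat.find_spec hex
    have hj₀pos : j₀ ≠ 0 := by
      intro h
      apply hj₀ne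
      rw [h, h0]
    obtain ⟨i, hi⟩ : ∃ i, j₀ = i + 1 := ⟨j₀ - 1, by omega⟩
    have hFi : F i = ⊤ := by
      by_contra hne
      have := Nat.find_min' hex hne
      omega
    have hbot : F (i + 1) = ⊥ := by
      rcases hs ⟨F (i + 1), fun g x hx => hst (i + 1) g x hx⟩ with hb | ht
      · exact hb
      · exact absurd ht (by rw [← hi]; exact hj₀ne)
    refine ⟨fun x => ?_, fun g x => ?_⟩
    · have := hr i x (by rw [hFi]; exact AddSubgroup.mem_top x)
      rw [hbot] at this
      exact this
    · have := hq i g x (by rw [hFi]; exact AddSubgroup.mem_top x)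
      rw [hbot] at this
      exact this

end Defs

/-- **Classification of the simple objects of the class** (F-SIMPLE): `0`, `ℤ/r` or `μ_r`. -/
theorem IsQuadNilp.classify [Fact r.Prime] {V : Type u} [AddCommGroup V] [DistribMulAction Γ V]
    [Finite V] (h : IsQuadNilp χ V) (hs : IsSimpleOrZero Γ V) :
    Subsingleton V ∨ (Nat.card V = r ∧ ∀ (g : Γ) (x : V), g • x = x) ∨
      (Nat.card V = r ∧ ∀ (g : Γ) (x : V), g • x = chiVal χ g • x) := by
  obtain ⟨hr, hq⟩ := h.simple χ hs
  exact Fermat.Agent.MAZ.Simple14.simple_of_two_char χ hr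
    (fun W hW => hs ⟨W, hW⟩) hq

end Fermat.Agent.MAZ.Constituents5
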