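/-
Fermat/Agent/MAZ/Constituents5/Hecke.lean  (helper5)

Programme MAZ (S15), brick X-ES-A1, abstract half, part 2: **the `m`-part of a Hecke–Galois module
lies in the class `C_r`.**

`V` a finite abelian group with commuting actions of a group `Γ` and of a commutative ring `T`;
`η : ι → T`, `m = (r, η i)`.  Assume
* `V` is `m`-primary: `nilPart (gen r η) V = ⊤` (e.g. `V = J[r^k]_m`);
* **Eichler–Shimura at every `g`**: for every `g : Γ` there are an index `i` and `q : ℕ` with
  `q ≡ χ(g) mod r` and `g² - (1 + q + η i) g + q = 0` on `V`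
  (`g` acts on `V` as a Frobenius at a prime `q ∉ S`; Chebotarev).
Then `IsQuadNilp χ V` (`isQuadNilp_of_hecke`): the filtration is `F j = m₀ ^ j • V` for a finitely
generated ideal `m₀ ⊆ m` with the same action on `V`.
-/
import Mathlib
import Fermat.Agent.MAZ.Alg5.Nakayama
import Fermat.Agent.MAZ.Constituents5.QuadNilp

set_option autoImplicit false
set_option linter.unusedSectionVars false
set_option linter.style.haveILetI false

namespace Fermat.Agent.MAZ.Constituents5

open Fermat.Agent.MAZ.Alg5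

universe u v w

variable {Γ : Type v} [Group Γ] {r : ℕ} (χ : Γ →* (ZMod r)ˣ)
variable {T : Type w} [CommRing T] {κ : Type*} (ζ : κ → T)
variable {V : Type u} [AddCommGroup V] [Module T V]

/-- **A primary finite module is killed by a power of a finitely generated ideal acting like
`m`.**  There are a finite set `s` of indices and `k` such that, with `I₀ = (ζ j : j ∈ s)`:
every `ζ i` acts on `V` as some `ζ j`, `j ∈ s`, and `I₀ ^ k • V = 0`. -/
theorem exists_finset_pow_smul_eq_bot [Finite V] (hnil : nilPart ζ V = ⊤) :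
    ∃ (s : Finset κ) (k : ℕ), (∀ i, ∃ j ∈ s, ∀ x : V, ζ i • x = ζ j • x) ∧
      (Ideal.span (ζ '' (s : Set κ))) ^ k • (⊤ : Submodule T V) = ⊥ := by
  obtain ⟨s, hs⟩ := exists_finset_repr ζ V
  set I₀ : Ideal T := Ideal.span (ζ '' (s : Set κ)) with hI₀
  -- every generator lies in the radical of the annihilator
  have hrad : I₀ ≤ (Module.annihilator T V).radical := by
    rw [hI₀, Ideal.span_le]
    rintro _ ⟨j, _, rfl⟩
    obtain ⟨n, hn, hid⟩ := exists_pow_idem (M := V) (ζ j)
    refine ⟨n, ?_⟩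
    rw [Module.mem_annihilator]
    intro x
    have hx : x ∈ nilPart ζ V := by rw [hnil]; exact Submodule.mem_top
    obtain ⟨m, hm⟩ := hx j
    exact pow_smul_eq_zero_of_idem hn hid hm
  have hfg : I₀.FG := by
    rw [hI₀]
    exact Submodule.fg_span ((s.finite_toSet).image ζ)
  obtain ⟨k, hk⟩ := Ideal.exists_pow_le_of_le_radical_of_fg hrad hfg
  refine ⟨s, k, hs, ?_⟩
  rw [eq_bot_iff]
  intro x hx
  refine Submodule.smul_induction_on hx (fun a ha y _ => ?_) (fun y z hy hz => ?_)
  · have := Module.mem_annihilator.1 (hk ha) y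
    rw [this]; exact Submodule.zero_mem _
  · exact Submodule.add_mem _ hy hz

variable [DistribMulAction Γ V]

/-- `I • N` is `Γ`-stable when `N` is and the actions commute. -/
theorem smul_mem_ideal_smul (hcomm : ∀ (t : T) (g : Γ) (x : V), g • t • x = t • g • x)
    (I : Ideal T) {N : Submodule T V} (hN : ∀ (g : Γ) (x : V), x ∈ N → g • x ∈ N) (g : Γ) {x : V}
    (hx : x ∈ I • N) : g • x ∈ I • N := by
  refine Submodule.smul_induction_on hx (fun a ha y hy => ?_) (fun y z hy hz => ?_)
  · rw [hcomm]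
    exact Submodule.smul_mem_smul ha (hN g y hy)
  · rw [smul_add]
    exact Submodule.add_mem _ hy hz

theorem smul_mem_pow_smul_top (hcomm : ∀ (t : T) (g : Γ) (x : V), g • t • x = t • g • x)
    (I : Ideal T) (j : ℕ) (g : Γ) {x : V} (hx : x ∈ I ^ j • (⊤ : Submodule T V)) :
    g • x ∈ I ^ j • (⊤ : Submodule T V) :=
  smul_mem_ideal_smul hcomm (I ^ j) (fun _ _ _ => Submodule.mem_top) g hx

/-- **X-ES-A1, abstract form.** -/
theorem isQuadNilp_of_hecke {ι : Type*} (η : ι → T) [Finite V]
    (hcomm : ∀ (t : T) (g : Γ) (x : V), g • t • x = t • g • x)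
    (hnil : nilPart (gen r η) V = ⊤)
    (hES : ∀ g : Γ, ∃ (i : ι) (q : ℕ), (q : ZMod r) = ((χ g : (ZMod r)ˣ) : ZMod r) ∧
      ∀ x : V, g • g • x + q • x = (1 + q) • g • x + η i • g • x) :
    IsQuadNilp χ V := by
  obtain ⟨s, k, hs, hk⟩ := exists_finset_pow_smul_eq_bot (gen r η) hnil
  set I₀ : Ideal T := Ideal.span (gen r η '' (s : Set (Option ι))) with hI₀
  -- each generator maps `I₀ ^ j • V` into `I₀ ^ (j + 1) • V`
  have hgen : ∀ (o : Option ι) (j : ℕ) (x : V), x ∈ I₀ ^ j • (⊤ : Submodule T V) →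
      gen r η o • x ∈ I₀ ^ (j + 1) • (⊤ : Submodule T V) := by
    intro o j x hx
    obtain ⟨o', ho', ho⟩ := hs o
    rw [ho x, pow_succ', Submodule.mul_smul]
    exact Submodule.smul_mem_smul (Ideal.subset_span ⟨o', ho', rfl⟩) hx
  refine ⟨k, fun j => (I₀ ^ j • (⊤ : Submodule T V)).toAddSubgroup, ?_, ?_, ?_, ?_, ?_⟩
  · show (I₀ ^ 0 • (⊤ : Submodule T V)).toAddSubgroup = ⊤
    rw [pow_zero, Ideal.one_eq_top, Submodule.top_smul]
    rfl
  · show (I₀ ^ k • (⊤ : Submodule T V)).toAddSubgroup = ⊥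
    rw [hk]
    rfl
  · intro j g x hx
    exact smul_mem_pow_smul_top hcomm I₀ j g hx
  · intro j x hx
    have h1 := hgen none j x hx
    rw [gen_none, Nat.cast_smul_eq_nsmul] at h1
    exact h1
  · intro j g x hx
    have hx' : x ∈ I₀ ^ j • (⊤ : Submodule T V) := hx
    obtain ⟨i, q, hq, hES⟩ := hES g
    -- `q = c + r * m` with `c = chiVal χ g`
    have hc : chiVal χ g = q % r := by
      unfold chiVal
      rw [← hq, ZMod.val_natCast]
    obtain ⟨m, hm⟩ : ∃ m, q = chiVal χ g + r * m := ⟨q / r, by rw [hc]; exact (Nat.mod_add_div q r).symm⟩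
    -- the identity `quadOp = η i • g x + r • (m • (g x - x))`
    have hid : quadOp χ g x = η i • g • x + r • (m • (g • x - x)) := by
      have h2 := hES x
      rw [quadOp_def]
      have e1 : g • g • x = (1 + q) • g • x + η i • g • x - q • x := by
        rw [← h2]; abel
      rw [e1, hm]
      simp only [add_smul, one_smul, mul_smul, smul_sub]
      abel
    rw [hid]
    have hgx : g • x ∈ I₀ ^ j • (⊤ : Submodule T V) := smul_mem_pow_smul_top hcomm I₀ j g hx'
    have h1 := hgen (some i) j (g • x) hgx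
    rw [gen_some] at h1
    have hd : m • (g • x - x) ∈ I₀ ^ j • (⊤ : Submodule T V) :=
      Submodule.smul_of_tower_mem _ m (Submodule.sub_mem _ hgx hx')
    have h2 := hgen none j _ hd
    rw [gen_none, Nat.cast_smul_eq_nsmul] at h2
    exact Submodule.add_mem _ h1 h2

end Fermat.Agent.MAZ.Constituents5
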